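import Fermat.Agent.Ribet.Spec

/-!
# RIBET / G1a (helper104): the integral Frey curve is a semistable, peu ramifié model

`P.freyCurveInt` (the Prelude's integral Weierstrass equation of the Frey curve) is

* an integral model of `P.freyCurve` (trivial variable change; the integer divisions in the
  Prelude definition are exact) : `isIntegralModelOf`;
* of discriminant `Δ` with `2 ^ 8 * Δ = (a b c) ^ (2 p)` : `two_pow_mul_Δ`, hence `Δ ≠ 0`;
* with `c₄ = A² + A B + B²`, `A = a ^ p`, `B = b ^ p` : `c₄_eq`;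
* semistable at EVERY prime (also at `2`) : `isSemistableModel`;
* peu ramifié at every odd prime `ℓ` (`ℓ ∣ v_ℓ(Δ)` when `ℓ = p`): `padicValRat_Δ`,
  `isPeuRamifieeAt`.

Main result: `freyModelAtP : Spec.FreyModelAtPStatement` (piece G1a of `coord/RIBET.md`).
The hypothesis `p ∣ abc` of the statement is not needed.

Everything is elementary; imports = `Ribet/Spec` only (Mathlib + Prelude definitions).
-/

set_option autoImplicit false

namespace Fermat.Agent.Ribet.H104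

open WeierstrassCurve

variable (P : FreyPackage)

/-! ### Exactness of the integer divisions in `freyCurveInt` -/

lemma two_dvd_b : (2 : ℤ) ∣ P.b := (ZMod.intCast_zmod_eq_zero_iff_dvd P.b 2).1 P.hb2

lemma four_dvd_a₂_num : (4 : ℤ) ∣ P.b ^ P.p - 1 - P.a ^ P.p := by
  have hp := P.hp5
  have hb4 : (4 : ℤ) ∣ P.b ^ P.p := by
    obtain ⟨k, hk⟩ := two_dvd_b P
    obtain ⟨j, hj⟩ : ∃ j, P.p = j + 2 := ⟨P.p - 2, by omega⟩
    exact ⟨2 ^ j * k ^ P.p, by rw [hk, hj]; ring⟩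
  have ha : ((P.a ^ P.p : ℤ) : ZMod 4) = 3 := by
    push_cast
    rw [P.ha4]
    obtain ⟨m, hm⟩ := P.hp_odd
    rw [hm, pow_succ, pow_mul]
    have : (3 : ZMod 4) ^ 2 = 1 := by decide
    rw [this, one_pow, one_mul]
  have hb' : ((P.b ^ P.p : ℤ) : ZMod 4) = 0 :=
    (ZMod.intCast_zmod_eq_zero_iff_dvd _ 4).2 hb4
  apply (ZMod.intCast_zmod_eq_zero_iff_dvd _ 4).1
  push_cast at ha hb' ⊢
  rw [ha, hb']
  decide

lemma sixteen_dvd_a₄_num : (16 : ℤ) ∣ -(P.a ^ P.p) * P.b ^ P.p := by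
  have hp := P.hp5
  obtain ⟨k, hk⟩ := two_dvd_b P
  obtain ⟨j, hj⟩ : ∃ j, P.p = j + 4 := ⟨P.p - 4, by omega⟩
  exact ⟨-(P.a ^ P.p) * (2 ^ j * k ^ P.p), by rw [hk, hj]; ring⟩

lemma four_mul_a₂ : 4 * P.freyCurveInt.a₂ = P.b ^ P.p - 1 - P.a ^ P.p :=
  Int.mul_ediv_cancel' (four_dvd_a₂_num P)

lemma sixteen_mul_a₄ : 16 * P.freyCurveInt.a₄ = -(P.a ^ P.p) * P.b ^ P.p :=
  Int.mul_ediv_cancel' (sixteen_dvd_a₄_num P)

/-! ### The Frey curve over `ℚ` is the base change of the integral Frey curve -/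

theorem freyCurve_eq_map : P.freyCurve = P.freyCurveInt.map (Int.castRingHom ℚ) := by
  have h4 := four_dvd_a₂_num P
  have h16 := sixteen_dvd_a₄_num P
  ext
  · simp [FreyPackage.freyCurve, FreyPackage.freyCurveInt, WeierstrassCurve.map]
  · simp only [FreyPackage.freyCurve, FreyPackage.freyCurveInt, WeierstrassCurve.map,
      eq_intCast]
    rw [Int.cast_div h4 (by norm_num)]
    push_cast
    ring
  · simp [FreyPackage.freyCurve, FreyPackage.freyCurveInt, WeierstrassCurve.map]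
  · simp only [FreyPackage.freyCurve, FreyPackage.freyCurveInt, WeierstrassCurve.map,
      eq_intCast]
    rw [Int.cast_div h16 (by norm_num)]
    push_cast
    ring
  · simp [FreyPackage.freyCurve, FreyPackage.freyCurveInt, WeierstrassCurve.map]

/-- `P.freyCurveInt` is an integral model of `P.freyCurve` (identity variable change). -/
theorem isIntegralModelOf : P.freyCurveInt.IsIntegralModelOf P.freyCurve :=
  ⟨1, by rw [one_smul, freyCurve_eq_map]⟩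

/-! ### Invariants of the integral Frey curve -/

lemma a₁_eq : P.freyCurveInt.a₁ = 1 := rfl
lemma a₃_eq : P.freyCurveInt.a₃ = 0 := rfl
lemma a₆_eq : P.freyCurveInt.a₆ = 0 := rfl

/-- `c₄ = A² + A B + B²` with `A = a ^ p`, `B = b ^ p`. -/
theorem c₄_eq :
    P.freyCurveInt.c₄ = (P.a ^ P.p) ^ 2 + P.a ^ P.p * P.b ^ P.p + (P.b ^ P.p) ^ 2 := by
  have h2 := four_mul_a₂ P
  have h4 := sixteen_mul_a₄ P
  simp only [WeierstrassCurve.c₄, WeierstrassCurve.b₂, WeierstrassCurve.b₄, a₁_eq, a₃_eq]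
  linear_combination (4 * P.freyCurveInt.a₂ + P.b ^ P.p - P.a ^ P.p + 1) * h2 - 3 * h4

/-- `2 ^ 8 * Δ = (a b c) ^ (2 p)`. -/
theorem two_pow_mul_Δ :
    2 ^ 8 * P.freyCurveInt.Δ = (P.a * P.b * P.c) ^ (2 * P.p) := by
  have h2 := four_mul_a₂ P
  have h4 := sixteen_mul_a₄ P
  have hc : P.c ^ P.p = P.a ^ P.p + P.b ^ P.p := P.hFLT.symm
  have e1 : 2 ^ 8 * P.freyCurveInt.Δ =
      (16 * P.freyCurveInt.a₄) ^ 2 *
        ((1 + 4 * P.freyCurveInt.a₂) ^ 2 - 4 * (16 * P.freyCurveInt.a₄)) := by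
    simp only [WeierstrassCurve.Δ, WeierstrassCurve.b₂, WeierstrassCurve.b₄,
      WeierstrassCurve.b₆, WeierstrassCurve.b₈, a₁_eq, a₃_eq, a₆_eq]
    ring
  have e2 : (P.a * P.b * P.c) ^ (2 * P.p) =
      (P.a ^ P.p) ^ 2 * (P.b ^ P.p) ^ 2 * (P.c ^ P.p) ^ 2 := by
    rw [mul_comm 2 P.p, pow_mul, mul_pow, mul_pow]
    ring
  rw [e1, e2, h2, h4, hc]
  ring

theorem abc_ne_zero : P.a * P.b * P.c ≠ 0 := P.habc0

theorem Δ_ne_zero : P.freyCurveInt.Δ ≠ 0 := by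
  intro h
  have := two_pow_mul_Δ P
  rw [h, mul_zero] at this
  exact pow_ne_zero _ (abc_ne_zero P) this.symm

/-! ### Semistability at every prime -/

lemma not_prime_dvd_of_dvd_gcd_one {x y ℓ : ℤ} (hℓ : Prime ℓ) (hxy : gcd x y = 1)
    (hx : ℓ ∣ x) (hy : ℓ ∣ y) : False := by
  have h1 : ℓ ∣ gcd x y := dvd_gcd hx hy
  rw [hxy] at h1
  exact hℓ.not_isUnit (isUnit_of_dvd_one h1)

/-- A prime dividing `c₄` of the integral Frey curve divides none of `a`, `b`, `c`. -/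
theorem not_dvd_abc_of_dvd_c₄ {ℓ : ℤ} (hℓ : Prime ℓ) (hc₄ : ℓ ∣ P.freyCurveInt.c₄) :
    ¬ ℓ ∣ P.a * P.b * P.c := by
  rw [c₄_eq] at hc₄
  have hp0 : P.p ≠ 0 := P.hp0
  have key_a : ℓ ∣ P.a → False := by
    intro ha
    have hA : ℓ ∣ P.a ^ P.p := dvd_pow ha hp0
    have hB2 : ℓ ∣ (P.b ^ P.p) ^ 2 := by
      have : (P.b ^ P.p) ^ 2 =
          ((P.a ^ P.p) ^ 2 + P.a ^ P.p * P.b ^ P.p + (P.b ^ P.p) ^ 2)
            - P.a ^ P.p * (P.a ^ P.p + P.b ^ P.p) := by ring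
      rw [this]
      exact dvd_sub hc₄ (dvd_mul_of_dvd_left hA _)
    have hb : ℓ ∣ P.b := hℓ.dvd_of_dvd_pow (hℓ.dvd_of_dvd_pow hB2)
    exact not_prime_dvd_of_dvd_gcd_one hℓ P.hgcdab ha hb
  have key_b : ℓ ∣ P.b → False := by
    intro hb
    have hB : ℓ ∣ P.b ^ P.p := dvd_pow hb hp0
    have hA2 : ℓ ∣ (P.a ^ P.p) ^ 2 := by
      have : (P.a ^ P.p) ^ 2 =
          ((P.a ^ P.p) ^ 2 + P.a ^ P.p * P.b ^ P.p + (P.b ^ P.p) ^ 2)
            - P.b ^ P.p * (P.a ^ P.p + P.b ^ P.p) := by ring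
      rw [this]
      exact dvd_sub hc₄ (dvd_mul_of_dvd_left hB _)
    have ha : ℓ ∣ P.a := hℓ.dvd_of_dvd_pow (hℓ.dvd_of_dvd_pow hA2)
    exact not_prime_dvd_of_dvd_gcd_one hℓ P.hgcdab ha hb
  intro habc
  rcases hℓ.dvd_or_dvd habc with hab | hc
  · rcases hℓ.dvd_or_dvd hab with ha | hb
    · exact key_a ha
    · exact key_b hb
  · have hC : ℓ ∣ P.a ^ P.p + P.b ^ P.p := by
      rw [P.hFLT]
      exact dvd_pow hc hp0
    have hAB : ℓ ∣ P.a ^ P.p * P.b ^ P.p := by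
      have : P.a ^ P.p * P.b ^ P.p =
          (P.a ^ P.p + P.b ^ P.p) * (P.a ^ P.p + P.b ^ P.p)
            - ((P.a ^ P.p) ^ 2 + P.a ^ P.p * P.b ^ P.p + (P.b ^ P.p) ^ 2) := by ring
      rw [this]
      exact dvd_sub (dvd_mul_of_dvd_left hC _) hc₄
    rcases hℓ.dvd_or_dvd hAB with hA | hB
    · exact key_a (hℓ.dvd_of_dvd_pow hA)
    · exact key_b (hℓ.dvd_of_dvd_pow hB)

/-- A prime dividing `Δ` of the integral Frey curve divides `abc`. -/
theorem dvd_abc_of_dvd_Δ {ℓ : ℤ} (hℓ : Prime ℓ) (hΔ : ℓ ∣ P.freyCurveInt.Δ) :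
    ℓ ∣ P.a * P.b * P.c := by
  have h : ℓ ∣ (P.a * P.b * P.c) ^ (2 * P.p) := by
    rw [← two_pow_mul_Δ]
    exact dvd_mul_of_dvd_right hΔ _
  exact hℓ.dvd_of_dvd_pow h

/-- The integral Frey curve is semistable at every prime: no prime divides both `Δ` and `c₄`. -/
theorem isSemistableModel : P.freyCurveInt.IsSemistableModel := by
  intro ℓ hℓ hΔ hc₄
  have hℓ' : Prime (ℓ : ℤ) := Nat.prime_iff_prime_int.mp hℓ
  exact not_dvd_abc_of_dvd_c₄ P hℓ' hc₄ (dvd_abc_of_dvd_Δ P hℓ' hΔ)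

/-- An odd prime dividing `abc` is a bad prime of the integral Frey curve. -/
theorem dvd_Δ_of_dvd_abc {ℓ : ℕ} (hℓ : ℓ.Prime) (hℓ2 : ℓ ≠ 2)
    (h : (ℓ : ℤ) ∣ P.a * P.b * P.c) : (ℓ : ℤ) ∣ P.freyCurveInt.Δ := by
  have hℓ' : Prime (ℓ : ℤ) := Nat.prime_iff_prime_int.mp hℓ
  have h2 : (ℓ : ℤ) ∣ 2 ^ 8 * P.freyCurveInt.Δ := by
    rw [two_pow_mul_Δ]
    exact dvd_pow h (by have := P.hp0; omega)
  rcases hℓ'.dvd_or_dvd h2 with h8 | hΔ
  · exfalso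
    have h2' : (ℓ : ℤ) ∣ 2 := hℓ'.dvd_of_dvd_pow h8
    have : ℓ ∣ 2 := by exact_mod_cast h2'
    exact hℓ2 ((Nat.prime_dvd_prime_iff_eq hℓ Nat.prime_two).1 this)
  · exact hΔ

/-! ### Peu ramifié at odd primes -/

/-- `v_ℓ(Δ) = 2 p · v_ℓ(abc)` for every odd prime `ℓ`. -/
theorem padicValRat_Δ {ℓ : ℕ} (hℓ : ℓ.Prime) (hℓ2 : ℓ ≠ 2) :
    padicValRat ℓ (P.freyCurveInt.map (Int.castRingHom ℚ)).Δ =
      (2 * P.p : ℕ) * padicValRat ℓ ((P.a * P.b * P.c : ℤ) : ℚ) := by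
  have : Fact ℓ.Prime := ⟨hℓ⟩
  have : Fact (2 : ℕ).Prime := ⟨Nat.prime_two⟩
  have hΔ0 : ((P.freyCurveInt.Δ : ℤ) : ℚ) ≠ 0 := by exact_mod_cast Δ_ne_zero P
  have habc0 : ((P.a * P.b * P.c : ℤ) : ℚ) ≠ 0 := by exact_mod_cast abc_ne_zero P
  have h28 : ((2 : ℚ) ^ 8) ≠ 0 := by norm_num
  have hcast : (2 : ℚ) ^ 8 * ((P.freyCurveInt.Δ : ℤ) : ℚ) =
      ((P.a * P.b * P.c : ℤ) : ℚ) ^ (2 * P.p) := by
    have := congrArg (Int.cast : ℤ → ℚ) (two_pow_mul_Δ P)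
    push_cast at this ⊢
    exact this
  have hv2 : padicValRat ℓ ((2 : ℚ) ^ 8) = 0 := by
    rw [padicValRat.pow]
    have : padicValRat ℓ (2 : ℚ) = 0 := by
      have h := padicValRat.of_nat (p := ℓ) (n := 2)
      rw [Nat.cast_ofNat] at h
      rw [h, padicValNat_primes hℓ2]
      rfl
    rw [this, mul_zero]
  have hmap : (P.freyCurveInt.map (Int.castRingHom ℚ)).Δ = ((P.freyCurveInt.Δ : ℤ) : ℚ) := by
    rw [WeierstrassCurve.map_Δ]
    rfl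
  rw [hmap]
  have h1 := congrArg (padicValRat ℓ) hcast
  rw [padicValRat.mul h28 hΔ0, hv2, zero_add, padicValRat.pow] at h1
  exact h1

/-- The integral Frey curve is peu ramifié (for the exponent `p`) at every odd prime `ℓ`:
`p ∣ v_ℓ(Δ)`. -/
theorem isPeuRamifieeAt {ℓ : ℕ} (hℓ : ℓ.Prime) (hℓ2 : ℓ ≠ 2) :
    (P.freyCurveInt.map (Int.castRingHom ℚ)).IsPeuRamifieeAt P.p ℓ := by
  unfold WeierstrassCurve.IsPeuRamifieeAt
  rw [padicValRat_Δ P hℓ hℓ2]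
  refine ⟨2 * padicValRat ℓ ((P.a * P.b * P.c : ℤ) : ℚ), ?_⟩
  push_cast
  ring

theorem p_ne_two : P.p ≠ 2 := by
  have := P.hp5
  omega

/-! ### The piece G1a -/

/-- **G1a** (`Spec.FreyModelAtPStatement`): the integral Frey curve is an integral model of the
Frey curve, with `Δ ≠ 0`, semistable at `p` and peu ramifié at `p`. -/
theorem freyModelAtP : Spec.FreyModelAtPStatement := by
  intro P _
  exact ⟨P.freyCurveInt, isIntegralModelOf P, Δ_ne_zero P,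
    fun hΔ => isSemistableModel P P.p P.pp hΔ, isPeuRamifieeAt P P.pp (p_ne_two P)⟩

end Fermat.Agent.Ribet.H104
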