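import Fermat.Agent.Ribet.H944.WallSpec
import Fermat.Agent.Ribet.H403.DetFrey
import Fermat.Agent.Ribet.H523.NonEisenstein

/-!
# Row 38 (RIBET), wall leaves NMT-W and NE-W  (helper104)

The two `W`-forms of the landed Frey statements, in the exact shape of
`Fermat/Agent/Ribet/H944/WallSpec.lean`:

* `nonEisW : Wall.NonEisWStatement` — the eigensystem `ℓ ↦ a_ℓ(W)` of an integral Weierstrass
  curve with irreducible `W[p]` is not Eisenstein (from `H523.exists_prime_not_eisenstein`).
* `notMultTypeW : Wall.NotMultTypeWStatement` — an irreducible `W[p]` (`p` odd) is not of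
  multiplicative type at `p`: inertia at `p` does not act on all of `W[p]` through the cyclotomic
  character (from `H403.det_eq_cycloPow` and `H403.exists_inertia_cycloPow_ne_one`).
* `nonscalar_of_irreducible_h104` — an irreducible two-dimensional `E[p]` has a non-scalar element
  in its image.
-/

set_option autoImplicit false

open WeierstrassCurve WeierstrassCurve.Affine WeierstrassCurve.Affine.Point

namespace Fermat.Agent.Ribet.H104

open Fermat.Agent.Ribet.H944.Wall

/-- `W` is an integral model of its own base change to `ℚ`. -/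
theorem isIntegralModelOf_map_h104 (W : WeierstrassCurve ℤ) :
    W.IsIntegralModelOf (W.map (Int.castRingHom ℚ)) :=
  ⟨1, one_smul _ _⟩

/-- **(NE-W)** the eigensystem of an irreducible `W[p]` is not Eisenstein. -/
theorem nonEisW : NonEisWStatement := by
  intro W p hΔ hp _ hirr S
  have hΔQ : (W.map (Int.castRingHom ℚ)).Δ ≠ 0 := by
    rw [WeierstrassCurve.map_Δ]
    simpa using hΔ
  obtain ⟨ℓ, hℓ, hℓS, -, hne⟩ :=
    Fermat.Agent.Ribet.H523.exists_prime_not_eisenstein (W.map (Int.castRingHom ℚ)) hΔQ W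
      (isIntegralModelOf_map_h104 W) p hp hirr S
  exact ⟨ℓ, hℓ, hℓS, hne⟩

/-- An irreducible `E[p]` of rank two has a non-scalar element in its Galois image. -/
theorem nonscalar_of_irreducible_h104 (E : WeierstrassCurve ℚ) (hΔ : E.Δ ≠ 0) (p : ℕ)
    [Fact p.Prime]
    (hirr : GaloisRepIsIrreducible (K := AlgebraicClosure ℚ) ℚ E p) :
    ∃ h : Fermat.Agent.Ribet.H403.GQ,
      ¬ ∃ s : ZMod p, ∀ x : Fermat.Agent.Ribet.H403.Tors E p, h • x = s • x := by
  by_contra hcon
  push Not at hcon
  have hdim : Module.finrank (ZMod p) (Fermat.Agent.Ribet.H403.Tors E p) = 2 :=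
    Fermat.Agent.Ribet.H403.finrank_tors E hΔ p
  obtain ⟨hnt, hirr'⟩ := hirr
  obtain ⟨x, hx⟩ := exists_ne (0 : Fermat.Agent.Ribet.H403.Tors E p)
  have hst : IsGaloisStable (K := AlgebraicClosure ℚ) ℚ
      (Submodule.span (ZMod p) {x}) := by
    intro σ y hy
    obtain ⟨s, hs⟩ := hcon σ
    rw [hs y]
    exact Submodule.smul_mem _ _ hy
  rcases hirr' _ hst with h | h
  · rw [Submodule.span_singleton_eq_bot] at h
    exact hx h
  · have h1 := finrank_span_singleton (K := ZMod p) hx
    rw [h, finrank_top, hdim] at h1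
    omega

/-- **(NMT-W)** an irreducible `W[p]`, `p` odd, is not of multiplicative type at `p`. -/
theorem notMultTypeW : NotMultTypeWStatement := by
  intro W p hΔ hp hp2 hirr A hA H
  have : Fact p.Prime := ⟨hp⟩
  have hΔQ : (W.map (Int.castRingHom ℚ)).Δ ≠ 0 := by
    rw [WeierstrassCurve.map_Δ]
    simpa using hΔ
  have hns := nonscalar_of_irreducible_h104 (W.map (Int.castRingHom ℚ)) hΔQ p hirr
  obtain ⟨σ, hσ, hne⟩ := Fermat.Agent.Ribet.H403.exists_inertia_cycloPow_ne_one p hp2 A hA
  apply hne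
  set c : ℕ := ((Fermat.Agent.S55.H414.cycloPow p σ : (ZMod p)ˣ) : ZMod p).val with hc
  have hroot : ∀ ζ : AlgebraicClosure ℚ, ζ ^ p = 1 → σ ζ = ζ ^ c :=
    fun ζ hζ => Fermat.Agent.Ribet.H403.apply_root_eq_pow_cycloPow p σ ζ hζ
  have hsc : ∀ x : ETorsion (W.map (Int.castRingHom ℚ)) p, σ • x = c • x :=
    H σ hσ c hroot
  have hdet := Fermat.Agent.Ribet.H403.det_eq_of_apply_root W p hΔ hns σ c hroot
  have hdim : Module.finrank (ZMod p)
      (Fermat.Agent.Ribet.H403.Tors (W.map (Int.castRingHom ℚ)) p) = 2 :=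
    Fermat.Agent.Ribet.H403.finrank_tors (W.map (Int.castRingHom ℚ)) hΔQ p
  have hend : galoisRepModuleEnd (S := ℚ) (K := AlgebraicClosure ℚ)
        (W.map (Int.castRingHom ℚ)) p σ
      = (c : ZMod p) • (LinearMap.id :
          Fermat.Agent.Ribet.H403.Tors (W.map (Int.castRingHom ℚ)) p →ₗ[ZMod p] _) := by
    apply LinearMap.ext
    intro x
    rw [galoisRepModuleEnd_apply, hsc x, LinearMap.smul_apply, LinearMap.id_apply,
      Nat.cast_smul_eq_nsmul]
  rw [hend, LinearMap.det_smul, LinearMap.det_id, mul_one, hdim] at hdet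
  have hcu : (c : ZMod p) = ((Fermat.Agent.S55.H414.cycloPow p σ : (ZMod p)ˣ) : ZMod p) := by
    rw [hc, ZMod.natCast_zmod_val]
  have hc0 : (c : ZMod p) ≠ 0 := by
    rw [hcu]
    exact Units.ne_zero _
  have hc1 : (c : ZMod p) = 1 := by
    have h : (c : ZMod p) * (c : ZMod p) = (c : ZMod p) * 1 := by
      rw [mul_one, ← pow_two]
      exact hdet
    exact mul_left_cancel₀ hc0 h
  apply Units.ext
  rw [← hcu, hc1, Units.val_one]

end Fermat.Agent.Ribet.H104
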